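import Mathlib

/-!
# Row LT, tower T7, node C2.7.7 `FactDownC305`, leaf FD.8 `ArchIntblC558`: abstract part
# (helper176, OFF-MAIN, MATHLIB ONLY)

`integrable_of_cut176`: `G` a locally compact, Hausdorff, second countable group with a Haar
measure `μ`, `T` a closed subgroup with a Haar measure `μT`, `β ≥ 0` a continuous cut-off function
(`∫_T β(t x) dμT(t) = 1` for all `x`), `f` continuous and bounded with `{f ≠ 0} ⊆ T · C`, `C`
compact.  Then `f · β` is integrable.

Proof.  `N` a compact neighbourhood of `1` in `T`, `C₂ = N⁻¹ C` (compact).  For `y = t₀ c`: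
`{t : t⁻¹ y ∈ C₂} ⊇ t₀ N`, so `1 ≤ μT(N)⁻¹ ∫_T 1_{C₂}(t⁻¹ y) dμT(t)` on the support, and
`∫_G ∫_T 1_{C₂}(t⁻¹ y) β(y) dμT(t) dμ(y) = ∫_T ∫_G 1_{C₂}(y) β(t y) dμ(y) dμT(t)
  = ∫_G 1_{C₂}(y) ∫_T β(t y) dμT(t) dμ(y) = μ(C₂) < ∞` (Tonelli, left invariance of `μ`).
Only the LEFT invariance of `μ` and of `μT` is used (no unimodularity, no commutativity).
-/

set_option autoImplicit false

open MeasureTheory Topology
open scoped ENNReal

noncomputable section

namespace Fermat.Agent.LT.T7.H176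

section Abstract

variable {G : Type*} [Group G] [TopologicalSpace G] [IsTopologicalGroup G]
  [SecondCountableTopology G] [MeasurableSpace G] [BorelSpace G]

/-- **Tonelli for a cut-off function.** -/
theorem lintegral_cut_eq176 (μ : Measure G) [SFinite μ] [μ.IsMulLeftInvariant]
    (T : Subgroup G) [MeasurableSpace T] [BorelSpace T] (μT : Measure T) [SFinite μT]
    (b : G → ℝ≥0∞) (hb : Measurable b)
    (hcut : ∀ x : G, ∫⁻ t : T, b ((t : G) * x) ∂μT = 1)
    (C₂ : Set G) (hC₂ : MeasurableSet C₂) :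
    ∫⁻ y, (∫⁻ t : T, C₂.indicator (fun _ => (1 : ℝ≥0∞)) ((t : G)⁻¹ * y) ∂μT) * b y ∂μ
      = μ C₂ := by
  have hval : Measurable (fun t : T => (t : G)) := continuous_subtype_val.measurable
  have hind : Measurable (C₂.indicator (fun _ : G => (1 : ℝ≥0∞))) :=
    measurable_const.indicator hC₂
  -- the two kernels
  have hm1 : Measurable (fun p : G × T => C₂.indicator (fun _ => (1 : ℝ≥0∞)) ((p.2 : G)⁻¹ * p.1)
      * b p.1) := by
    refine Measurable.mul ?_ (hb.comp measurable_fst)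
    refine hind.comp ?_
    have hc : Continuous (fun p : G × T => (p.2 : G)⁻¹ * p.1) :=
      ((continuous_subtype_val.comp continuous_snd).inv).mul continuous_fst
    exact hc.measurable
  have hm2 : Measurable (fun p : T × G => C₂.indicator (fun _ => (1 : ℝ≥0∞)) p.2
      * b ((p.1 : G) * p.2)) := by
    refine Measurable.mul (hind.comp measurable_snd) (hb.comp ?_)
    have hc : Continuous (fun p : T × G => (p.1 : G) * p.2) :=
      (continuous_subtype_val.comp continuous_fst).mul continuous_snd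
    exact hc.measurable
  calc ∫⁻ y, (∫⁻ t : T, C₂.indicator (fun _ => (1 : ℝ≥0∞)) ((t : G)⁻¹ * y) ∂μT) * b y ∂μ
      = ∫⁻ y, ∫⁻ t : T, C₂.indicator (fun _ => (1 : ℝ≥0∞)) ((t : G)⁻¹ * y) * b y ∂μT ∂μ := by
        refine lintegral_congr fun y => ?_
        rw [lintegral_mul_const]
        exact hind.comp ((hval.inv).mul_const y)
    _ = ∫⁻ t : T, ∫⁻ y, C₂.indicator (fun _ => (1 : ℝ≥0∞)) ((t : G)⁻¹ * y) * b y ∂μ ∂μT :=
        lintegral_lintegral_swap hm1.aemeasurable
    _ = ∫⁻ t : T, ∫⁻ y, C₂.indicator (fun _ => (1 : ℝ≥0∞)) y * b ((t : G) * y) ∂μ ∂μT := by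
        refine lintegral_congr fun t => ?_
        have h := lintegral_mul_left_eq_self (μ := μ)
          (fun y => C₂.indicator (fun _ => (1 : ℝ≥0∞)) ((t : G)⁻¹ * y) * b y) (t : G)
        rw [← h]
        refine lintegral_congr fun y => ?_
        simp only [inv_mul_cancel_left]
    _ = ∫⁻ y, ∫⁻ t : T, C₂.indicator (fun _ => (1 : ℝ≥0∞)) y * b ((t : G) * y) ∂μT ∂μ :=
        lintegral_lintegral_swap hm2.aemeasurable
    _ = ∫⁻ y, C₂.indicator (fun _ => (1 : ℝ≥0∞)) y ∂μ := by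
        refine lintegral_congr fun y => ?_
        rw [lintegral_const_mul, hcut y, mul_one]
        exact hb.comp (hval.mul_const y)
    _ = μ C₂ := by
        rw [lintegral_indicator hC₂]
        simp

/-- **Integrability of a cut-off orbital integrand** (abstract form). -/
theorem integrable_of_cut176 [LocallyCompactSpace G] [T2Space G]
    (μ : Measure G) [μ.IsHaarMeasure]
    (T : Subgroup G) (hT : IsClosed (T : Set G)) [MeasurableSpace T] [BorelSpace T]
    (μT : Measure T) [μT.IsHaarMeasure]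
    (β : G → ℝ) (hβc : Continuous β) (hβ0 : ∀ x, 0 ≤ β x)
    (hcut : ∀ x : G, ∫ t : T, β ((t : G) * x) ∂μT = 1)
    (f : G → ℂ) (hf : Continuous f) (M : ℝ) (hM : ∀ y, ‖f y‖ ≤ M)
    (C : Set G) (hC : IsCompact C)
    (hsupp : ∀ y, f y ≠ 0 → ∃ t ∈ T, ∃ c ∈ C, y = t * c) :
    Integrable (fun y => f y * ((β y : ℝ) : ℂ)) μ := by
  have : LocallyCompactSpace T := hT.isClosedEmbedding_subtypeVal.locallyCompactSpace
  have : SigmaCompactSpace T := hT.isClosedEmbedding_subtypeVal.sigmaCompactSpace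
  have : SigmaFinite μ := inferInstance
  have : SigmaFinite μT := inferInstance
  obtain ⟨N, hNc, hN1⟩ := exists_compact_mem_nhds (1 : T)
  have hNpos : 0 < μT N := Measure.measure_pos_of_mem_nhds μT hN1
  have hNfin : μT N < ⊤ := hNc.measure_lt_top
  obtain ⟨C₂, hC₂c, hC₂⟩ : ∃ C₂ : Set G, IsCompact C₂ ∧
      ∀ n ∈ N, ∀ c ∈ C, (n : G)⁻¹ * c ∈ C₂ :=
    ⟨(fun p : T × G => (p.1 : G)⁻¹ * p.2) '' (N ×ˢ C),
      (hNc.prod hC).image (((continuous_subtype_val.comp continuous_fst).inv).mul continuous_snd),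
      fun n hn c hc => ⟨(n, c), ⟨hn, hc⟩, rfl⟩⟩
  have hC₂m : MeasurableSet C₂ := hC₂c.isClosed.measurableSet
  set b : G → ℝ≥0∞ := fun y => ENNReal.ofReal (β y) with hb
  have hbm : Measurable b := ENNReal.measurable_ofReal.comp hβc.measurable
  have hcut' : ∀ x : G, ∫⁻ t : T, b ((t : G) * x) ∂μT = 1 := by
    intro x
    have hint : Integrable (fun t : T => β ((t : G) * x)) μT :=
      integrable_of_integral_eq_one (hcut x)
    have h := ofReal_integral_eq_lintegral_ofReal hint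
      (Filter.Eventually.of_forall fun t => hβ0 _)
    rw [hcut x] at h
    simpa using h.symm
  have hkey := lintegral_cut_eq176 μ T μT b hbm hcut' C₂ hC₂m
  -- the lower bound on the support
  have hg : ∀ y, f y ≠ 0 →
      μT N ≤ ∫⁻ t : T, C₂.indicator (fun _ => (1 : ℝ≥0∞)) ((t : G)⁻¹ * y) ∂μT := by
    intro y hy
    obtain ⟨t₀, ht₀, c, hc, rfl⟩ := hsupp y hy
    have hSm : MeasurableSet {t : T | (t : G)⁻¹ * (t₀ * c) ∈ C₂} := by
      have hcont : Continuous (fun t : T => (t : G)⁻¹ * (t₀ * c)) :=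
        (continuous_subtype_val.inv).mul continuous_const
      exact hC₂m.preimage hcont.measurable
    have h1 : (fun t : T => C₂.indicator (fun _ => (1 : ℝ≥0∞)) ((t : G)⁻¹ * (t₀ * c)))
        = {t : T | (t : G)⁻¹ * (t₀ * c) ∈ C₂}.indicator (fun _ => (1 : ℝ≥0∞)) := by
      funext t
      by_cases h : (t : G)⁻¹ * (t₀ * c) ∈ C₂
      · rw [Set.indicator_of_mem h]
        exact (Set.indicator_of_mem (s := {t : T | (t : G)⁻¹ * (t₀ * c) ∈ C₂}) h
          (fun _ => (1 : ℝ≥0∞))).symm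
      · rw [Set.indicator_of_notMem h]
        exact (Set.indicator_of_notMem (s := {t : T | (t : G)⁻¹ * (t₀ * c) ∈ C₂}) h
          (fun _ => (1 : ℝ≥0∞))).symm
    rw [h1, lintegral_indicator hSm]
    simp only [lintegral_const, MeasurableSet.univ, Measure.restrict_apply, Set.univ_inter,
      one_mul]
    have h2 : μT ((fun t : T => (⟨t₀, ht₀⟩ : T)⁻¹ * t) ⁻¹' N) = μT N :=
      measure_preimage_mul μT _ N
    rw [← h2]
    refine measure_mono ?_
    intro t ht
    simp only [Set.mem_preimage] at ht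
    have h3 := hC₂ _ ht c hc
    have h4 : (((⟨t₀, ht₀⟩ : T)⁻¹ * t : T) : G)⁻¹ * c = (t : G)⁻¹ * (t₀ * c) := by
      simp [mul_assoc]
    rw [h4] at h3
    exact h3
  -- integrability
  refine ⟨(hf.mul (Complex.continuous_ofReal.comp hβc)).aestronglyMeasurable, ?_⟩
  have hM0 : ENNReal.ofReal M * (μT N)⁻¹ ≠ ⊤ :=
    ENNReal.mul_ne_top ENNReal.ofReal_ne_top (ENNReal.inv_ne_top.mpr hNpos.ne')
  calc ∫⁻ y, ‖f y * ((β y : ℝ) : ℂ)‖ₑ ∂μ
      ≤ ∫⁻ y, ENNReal.ofReal M * (μT N)⁻¹ *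
          ((∫⁻ t : T, C₂.indicator (fun _ => (1 : ℝ≥0∞)) ((t : G)⁻¹ * y) ∂μT) * b y) ∂μ := by
        refine lintegral_mono fun y => ?_
        by_cases hy : f y = 0
        · simp [hy]
        · have h1 : ‖f y * ((β y : ℝ) : ℂ)‖ₑ = ‖f y‖ₑ * b y := by
            rw [enorm_mul]
            congr 1
            rw [← ofReal_norm]
            simp [hb, abs_of_nonneg (hβ0 y)]
          have h2 : ‖f y‖ₑ ≤ ENNReal.ofReal M := by
            rw [← ofReal_norm]
            exact ENNReal.ofReal_le_ofReal (hM y)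
          have h3 : (1 : ℝ≥0∞)
              ≤ (μT N)⁻¹ * ∫⁻ t : T, C₂.indicator (fun _ => (1 : ℝ≥0∞)) ((t : G)⁻¹ * y) ∂μT := by
            calc (1 : ℝ≥0∞) = (μT N)⁻¹ * μT N :=
                  (ENNReal.inv_mul_cancel hNpos.ne' hNfin.ne).symm
              _ ≤ _ := by gcongr; exact hg y hy
          rw [h1]
          calc ‖f y‖ₑ * b y ≤ ENNReal.ofReal M * (1 * b y) := by
                rw [one_mul]; gcongr
            _ ≤ ENNReal.ofReal M * (((μT N)⁻¹ *
                  ∫⁻ t : T, C₂.indicator (fun _ => (1 : ℝ≥0∞)) ((t : G)⁻¹ * y) ∂μT) * b y) := by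
                gcongr
            _ = _ := by ring
    _ = ENNReal.ofReal M * (μT N)⁻¹ * μ C₂ := by
        rw [lintegral_const_mul' _ _ hM0, hkey]
    _ < ⊤ := ENNReal.mul_lt_top hM0.lt_top hC₂c.measure_lt_top

end Abstract

end Fermat.Agent.LT.T7.H176

end
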