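import Mathlib

/-!
# Row LT, tower T7, node C2.7.7 `FactDownC305`, leaf FD.8 `ArchIntblC558`: the closed orbit
# (helper176, OFF-MAIN, MATHLIB ONLY)

`exists_compact_orbit176`: for `γ₀ ∈ GL₂(ℂ)` with non-zero discriminant and a compact set `Ω`
there is a compact set `C` with `{y : y⁻¹ γ₀ y ∈ Ω} ⊆ T C`, `T` the centraliser of `γ₀`.

Proof.  `g₀ γ₀ = D g₀`, `D = diag(a, b)`, `a ≠ b` (left eigenvectors).  For `ω = y⁻¹ γ₀ y ∈ Ω`
and `u = g₀ y`: `D u = u ω`.  Normalise the rows of `u` in the `ℓ¹`-norm: `u = d u₁`,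
`d = diag(n₀, n₁)`; `t = g₀⁻¹ d g₀` commutes with `γ₀`, `y = t (g₀⁻¹ u₁)`.  From `D u₁ = u₁ ω`:
`det u₁ · (ω - a) = (b - a) · (± u₁_{0i} u₁_{1j})_{ij}`; summing the norms of the entries,
`|det u₁| · ∑ |(ω - a)_{ij}| = |b - a|`, so `|det u₁| ≥ ε > 0` on `Ω`: the entries of `u₁` and of
`u₁⁻¹ = adj(u₁) / det(u₁)` are bounded, a compact subset of `GL₂(ℂ)`.
-/

set_option autoImplicit false

open Topology Matrix

noncomputable section

namespace Fermat.Agent.LT.T7.H176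

/-! ## Algebra of `2 × 2` matrices -/

/-- The four entries of `D U = U W`. -/
theorem entries_of_diag_mul176 {a b : ℂ} {U W : Matrix (Fin 2) (Fin 2) ℂ}
    (h : !![a, 0; 0, b] * U = U * W) :
    a * U 0 0 = U 0 0 * W 0 0 + U 0 1 * W 1 0 ∧ a * U 0 1 = U 0 0 * W 0 1 + U 0 1 * W 1 1 ∧
    b * U 1 0 = U 1 0 * W 0 0 + U 1 1 * W 1 0 ∧ b * U 1 1 = U 1 0 * W 0 1 + U 1 1 * W 1 1 := by
  have h00 := congrFun (congrFun h 0) 0
  have h01 := congrFun (congrFun h 0) 1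
  have h10 := congrFun (congrFun h 1) 0
  have h11 := congrFun (congrFun h 1) 1
  simp only [Matrix.mul_apply, Fin.sum_univ_two, Matrix.of_apply, Matrix.cons_val_zero,
    Matrix.cons_val_one, Matrix.cons_val', Matrix.cons_val_fin_one, zero_mul, add_zero,
    zero_add] at h00 h01 h10 h11
  exact ⟨h00, h01, h10, h11⟩

/-- **The determinant identity.** -/
theorem det_mul_entries176 {a b : ℂ} {U W : Matrix (Fin 2) (Fin 2) ℂ}
    (h : !![a, 0; 0, b] * U = U * W) :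
    U.det * (W 0 0 - a) = (b - a) * (-(U 0 1 * U 1 0)) ∧
    U.det * W 0 1 = (b - a) * (-(U 0 1 * U 1 1)) ∧
    U.det * W 1 0 = (b - a) * (U 0 0 * U 1 0) ∧
    U.det * (W 1 1 - a) = (b - a) * (U 0 0 * U 1 1) := by
  obtain ⟨e00, e01, e10, e11⟩ := entries_of_diag_mul176 h
  rw [Matrix.det_fin_two]
  refine ⟨?_, ?_, ?_, ?_⟩
  · linear_combination (-U 1 1) * e00 + U 0 1 * e10
  · linear_combination (-U 1 1) * e01 + U 0 1 * e11
  · linear_combination U 1 0 * e00 - U 0 0 * e10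
  · linear_combination U 1 0 * e01 - U 0 0 * e11

/-- **The lower bound for the determinant** of a matrix with `ℓ¹`-normalised rows which
conjugates `W` to `diag(a, b)`. -/
theorem det_lower_bound176 {a b : ℂ} {U W : Matrix (Fin 2) (Fin 2) ℂ}
    (h : !![a, 0; 0, b] * U = U * W)
    (h0 : ‖U 0 0‖ + ‖U 0 1‖ = 1) (h1 : ‖U 1 0‖ + ‖U 1 1‖ = 1)
    {M : ℝ} (hM : ∀ i j, ‖W i j‖ ≤ M) :
    ‖b - a‖ ≤ ‖U.det‖ * (4 * M + 2 * ‖a‖) := by
  obtain ⟨d00, d01, d10, d11⟩ := det_mul_entries176 h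
  have n00 := congrArg norm d00
  have n01 := congrArg norm d01
  have n10 := congrArg norm d10
  have n11 := congrArg norm d11
  simp only [norm_mul, norm_neg] at n00 n01 n10 n11
  have hsum : ‖U.det‖ * (‖W 0 0 - a‖ + ‖W 0 1‖ + ‖W 1 0‖ + ‖W 1 1 - a‖) = ‖b - a‖ := by
    have : ‖U.det‖ * (‖W 0 0 - a‖ + ‖W 0 1‖ + ‖W 1 0‖ + ‖W 1 1 - a‖)
        = ‖b - a‖ * ((‖U 0 0‖ + ‖U 0 1‖) * (‖U 1 0‖ + ‖U 1 1‖)) := by
      linear_combination n00 + n01 + n10 + n11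
    rw [this, h0, h1]; ring
  rw [← hsum]
  refine mul_le_mul_of_nonneg_left ?_ (norm_nonneg _)
  have e1 : ‖W 0 0 - a‖ ≤ M + ‖a‖ := (norm_sub_le _ _).trans (by linarith [hM 0 0])
  have e2 : ‖W 1 1 - a‖ ≤ M + ‖a‖ := (norm_sub_le _ _).trans (by linarith [hM 1 1])
  linarith [hM 0 1, hM 1 0]

/-- **Diagonalisation** (left eigenvectors) of a `2 × 2` matrix with non-zero discriminant. -/
theorem exists_diag176 (A : Matrix (Fin 2) (Fin 2) ℂ) (hA : A.trace ^ 2 - 4 * A.det ≠ 0) :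
    ∃ (P : Matrix (Fin 2) (Fin 2) ℂ) (a b : ℂ), P.det ≠ 0 ∧ a ≠ b ∧
      P * A = !![a, 0; 0, b] * P := by
  rw [Matrix.trace_fin_two, Matrix.det_fin_two] at hA
  by_cases hr : A 1 0 = 0
  · refine ⟨!![A 0 0 - A 1 1, A 0 1; 0, 1], A 0 0, A 1 1, ?_, ?_, ?_⟩
    · rw [Matrix.det_fin_two_of]
      intro h
      apply hA
      have : A 0 0 = A 1 1 := by linear_combination h
      rw [hr, this]; ring
    · intro h
      apply hA
      rw [hr, h]; ring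
    · conv_lhs => rw [Matrix.eta_fin_two A]
      rw [Matrix.mul_fin_two, Matrix.mul_fin_two, hr]
      congr 1
      ext i j
      fin_cases i <;> fin_cases j <;> simp <;> ring
  · obtain ⟨w, hw⟩ := IsAlgClosed.exists_pow_nat_eq
      ((A 0 0 + A 1 1) ^ 2 - 4 * (A 0 0 * A 1 1 - A 0 1 * A 1 0)) (n := 2) (by norm_num)
    have hw0 : w ≠ 0 := by
      intro h
      apply hA
      rw [← hw, h]; ring
    refine ⟨!![A 1 0, (A 0 0 + A 1 1 + w) / 2 - A 0 0; A 1 0, (A 0 0 + A 1 1 - w) / 2 - A 0 0],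
      (A 0 0 + A 1 1 + w) / 2, (A 0 0 + A 1 1 - w) / 2, ?_, ?_, ?_⟩
    · rw [Matrix.det_fin_two_of]
      intro h
      have : A 1 0 * w = 0 := by linear_combination -h
      rcases mul_eq_zero.mp this with h' | h'
      · exact hr h'
      · exact hw0 h'
    · intro h
      apply hw0
      linear_combination h
    · conv_lhs => rw [Matrix.eta_fin_two A]
      rw [Matrix.mul_fin_two, Matrix.mul_fin_two]
      congr 1
      ext i j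
      fin_cases i <;> fin_cases j <;> simp <;>
        first
        | linear_combination (-1 / 4 : ℂ) * hw
        | linear_combination (1 / 4 : ℂ) * hw
        | ring1

/-! ## Compact subsets of `GL₂(ℂ)` -/

/-- Bounded sets of matrices are compact. -/
theorem isCompact_matBdd176 (r : ℝ) :
    IsCompact {A : Matrix (Fin 2) (Fin 2) ℂ | ∀ i j, ‖A i j‖ ≤ r} := by
  have h : {A : Matrix (Fin 2) (Fin 2) ℂ | ∀ i j, ‖A i j‖ ≤ r}
      = Set.pi Set.univ (fun _ : Fin 2 =>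
          Set.pi Set.univ (fun _ : Fin 2 => Metric.closedBall (0 : ℂ) r)) := by
    ext A
    constructor
    · intro h i _ j _
      rw [Metric.mem_closedBall, dist_zero_right]
      exact h i j
    · intro h i j
      have := h i (Set.mem_univ i) j (Set.mem_univ j)
      rw [Metric.mem_closedBall, dist_zero_right] at this
      exact this
  rw [h]
  exact isCompact_univ_pi (fun _ => isCompact_univ_pi (fun _ => isCompact_closedBall 0 r))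

/-- The elements of `GL₂(ℂ)` with entries bounded by `1` and entries of the inverse bounded by
`R` form a compact set. -/
theorem isCompact_glBdd176 (R : ℝ) :
    IsCompact {u : GL (Fin 2) ℂ | (∀ i j, ‖(u : Matrix (Fin 2) (Fin 2) ℂ) i j‖ ≤ 1) ∧
      ∀ i j, ‖((u⁻¹ : GL (Fin 2) ℂ) : Matrix (Fin 2) (Fin 2) ℂ) i j‖ ≤ R} := by
  have h1 := isCompact_matBdd176 1
  have h2 : IsCompact (MulOpposite.op '' {A : Matrix (Fin 2) (Fin 2) ℂ | ∀ i j, ‖A i j‖ ≤ R}) :=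
    (isCompact_matBdd176 R).image MulOpposite.continuous_op
  have h3 := (Units.isClosedEmbedding_embedProduct
    (α := Matrix (Fin 2) (Fin 2) ℂ)).isCompact_preimage (h1.prod h2)
  convert h3 using 1
  ext u
  simp only [Set.mem_ofPred_eq, Set.mem_preimage, Set.mem_prod, Units.embedProduct_apply,
    Set.mem_image, MulOpposite.op_inj, exists_eq_right]

/-! ## The closed orbit -/

/-- **The closed orbit of a regular element of `GL₂(ℂ)`.** -/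
theorem exists_compact_orbit176 (γ₀ : GL (Fin 2) ℂ)
    (hreg : (γ₀ : Matrix (Fin 2) (Fin 2) ℂ).trace ^ 2
      - 4 * (γ₀ : Matrix (Fin 2) (Fin 2) ℂ).det ≠ 0)
    (Ω : Set (GL (Fin 2) ℂ)) (hΩ : IsCompact Ω) :
    ∃ C : Set (GL (Fin 2) ℂ), IsCompact C ∧
      ∀ y : GL (Fin 2) ℂ, y⁻¹ * γ₀ * y ∈ Ω →
        ∃ t c : GL (Fin 2) ℂ, t⁻¹ * γ₀ * t = γ₀ ∧ c ∈ C ∧ y = t * c := by
  obtain ⟨P, a, b, hP, hab, hPA⟩ := exists_diag176 _ hreg
  obtain ⟨g₀, hg₀c⟩ : ∃ g₀ : GL (Fin 2) ℂ, (g₀ : Matrix (Fin 2) (Fin 2) ℂ) = P :=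
    ⟨Matrix.GeneralLinearGroup.mkOfDetNeZero P hP, rfl⟩
  -- the conjugate of `γ₀` is diagonal
  have hDg : ((g₀ * γ₀ * g₀⁻¹ : GL (Fin 2) ℂ) : Matrix (Fin 2) (Fin 2) ℂ) = !![a, 0; 0, b] := by
    have h1 : ((g₀ * γ₀ * g₀⁻¹ : GL (Fin 2) ℂ) : Matrix (Fin 2) (Fin 2) ℂ)
        = (g₀ : Matrix (Fin 2) (Fin 2) ℂ) * (γ₀ : Matrix (Fin 2) (Fin 2) ℂ)
          * ((g₀⁻¹ : GL (Fin 2) ℂ) : Matrix (Fin 2) (Fin 2) ℂ) := by
      simp only [Units.val_mul]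
    rw [h1, hg₀c, hPA, Matrix.mul_assoc, ← hg₀c, ← Units.val_mul, mul_inv_cancel, Units.val_one,
      Matrix.mul_one]
  -- a bound for the entries on `Ω`
  obtain ⟨M, hM0, hM⟩ : ∃ M : ℝ, 0 ≤ M ∧
      ∀ ω ∈ Ω, ∀ i j, ‖(ω : Matrix (Fin 2) (Fin 2) ℂ) i j‖ ≤ M := by
    have hc : ∀ i j : Fin 2,
        Continuous (fun ω : GL (Fin 2) ℂ => (ω : Matrix (Fin 2) (Fin 2) ℂ) i j) := by
      intro i j
      have hval : Continuous (fun ω : GL (Fin 2) ℂ => (ω : Matrix (Fin 2) (Fin 2) ℂ)) :=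
        Units.continuous_val
      exact hval.matrix_elem i j
    choose B hB using fun i j => hΩ.exists_bound_of_continuousOn (hc i j).continuousOn
    refine ⟨∑ i, ∑ j, |B i j|, Finset.sum_nonneg fun i _ => Finset.sum_nonneg fun j _ =>
      abs_nonneg _, fun ω hω i j => ?_⟩
    calc ‖(ω : Matrix (Fin 2) (Fin 2) ℂ) i j‖ ≤ B i j := hB i j ω hω
      _ ≤ |B i j| := le_abs_self _
      _ ≤ ∑ j', |B i j'| :=
          Finset.single_le_sum (f := fun j' => |B i j'|) (fun _ _ => abs_nonneg _)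
            (Finset.mem_univ j)
      _ ≤ ∑ i', ∑ j', |B i' j'| :=
          Finset.single_le_sum (f := fun i' => ∑ j', |B i' j'|)
            (fun _ _ => Finset.sum_nonneg fun _ _ => abs_nonneg _) (Finset.mem_univ i)
  have hba : 0 < ‖b - a‖ := norm_pos_iff.mpr (sub_ne_zero.mpr (Ne.symm hab))
  have hden : 0 < 4 * M + 2 * ‖a‖ + 1 := by positivity
  refine ⟨(fun c => g₀⁻¹ * c) '' {u : GL (Fin 2) ℂ |
      (∀ i j, ‖(u : Matrix (Fin 2) (Fin 2) ℂ) i j‖ ≤ 1) ∧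
      ∀ i j, ‖((u⁻¹ : GL (Fin 2) ℂ) : Matrix (Fin 2) (Fin 2) ℂ) i j‖
        ≤ (4 * M + 2 * ‖a‖ + 1) / ‖b - a‖},
    (isCompact_glBdd176 _).image (continuous_const.mul continuous_id), ?_⟩
  intro y hy
  -- `u = g₀ y` and its matrix
  set U : Matrix (Fin 2) (Fin 2) ℂ := ((g₀ * y : GL (Fin 2) ℂ) : Matrix (Fin 2) (Fin 2) ℂ)
    with hUdef
  have hU : !![a, 0; 0, b] * U
      = U * ((y⁻¹ * γ₀ * y : GL (Fin 2) ℂ) : Matrix (Fin 2) (Fin 2) ℂ) := by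
    have h1 : U * ((y⁻¹ * γ₀ * y : GL (Fin 2) ℂ) : Matrix (Fin 2) (Fin 2) ℂ)
        = ((g₀ * γ₀ * g₀⁻¹ * (g₀ * y) : GL (Fin 2) ℂ) : Matrix (Fin 2) (Fin 2) ℂ) := by
      rw [hUdef, ← Units.val_mul]
      congr 1
      group
    rw [h1, Units.val_mul, hDg]
  have hUdet : U.det ≠ 0 := by
    have := (Matrix.isUnit_iff_isUnit_det _).mp (g₀ * y).isUnit
    exact this.ne_zero
  rw [Matrix.det_fin_two] at hUdet
  -- the norms of the rows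
  have hn0 : 0 < ‖U 0 0‖ + ‖U 0 1‖ := by
    rcases (add_nonneg (norm_nonneg (U 0 0)) (norm_nonneg (U 0 1))).lt_or_eq with h | h
    · exact h
    · exfalso
      have h00 : U 0 0 = 0 := norm_eq_zero.mp
        (by linarith [norm_nonneg (U 0 0), norm_nonneg (U 0 1)])
      have h01 : U 0 1 = 0 := norm_eq_zero.mp
        (by linarith [norm_nonneg (U 0 0), norm_nonneg (U 0 1)])
      apply hUdet
      rw [h00, h01]; ring
  have hn1 : 0 < ‖U 1 0‖ + ‖U 1 1‖ := by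
    rcases (add_nonneg (norm_nonneg (U 1 0)) (norm_nonneg (U 1 1))).lt_or_eq with h | h
    · exact h
    · exfalso
      have h10 : U 1 0 = 0 := norm_eq_zero.mp
        (by linarith [norm_nonneg (U 1 0), norm_nonneg (U 1 1)])
      have h11 : U 1 1 = 0 := norm_eq_zero.mp
        (by linarith [norm_nonneg (U 1 0), norm_nonneg (U 1 1)])
      apply hUdet
      rw [h10, h11]; ring
  set n₀ : ℝ := ‖U 0 0‖ + ‖U 0 1‖ with hn₀
  set n₁ : ℝ := ‖U 1 0‖ + ‖U 1 1‖ with hn₁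
  have hn0c : (n₀ : ℂ) ≠ 0 := by exact_mod_cast hn0.ne'
  have hn1c : (n₁ : ℂ) ≠ 0 := by exact_mod_cast hn1.ne'
  -- the diagonal matrices
  obtain ⟨d, hd⟩ : ∃ d : GL (Fin 2) ℂ,
      (d : Matrix (Fin 2) (Fin 2) ℂ) = !![(n₀ : ℂ), 0; 0, (n₁ : ℂ)] :=
    ⟨Matrix.GeneralLinearGroup.mkOfDetNeZero !![(n₀ : ℂ), 0; 0, (n₁ : ℂ)] (by
      rw [Matrix.det_fin_two_of]; simp [hn0c, hn1c]), rfl⟩
  obtain ⟨e, he⟩ : ∃ e : GL (Fin 2) ℂ,
      (e : Matrix (Fin 2) (Fin 2) ℂ) = !![(n₀ : ℂ)⁻¹, 0; 0, (n₁ : ℂ)⁻¹] :=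
    ⟨Matrix.GeneralLinearGroup.mkOfDetNeZero !![(n₀ : ℂ)⁻¹, 0; 0, (n₁ : ℂ)⁻¹] (by
      rw [Matrix.det_fin_two_of]; simp [hn0c, hn1c]), rfl⟩
  have hde : d * e = 1 := by
    apply Units.ext
    rw [Units.val_mul, hd, he, Units.val_one, Matrix.mul_fin_two, Matrix.one_fin_two]
    simp [hn0c, hn1c]
  have hdD : d * (g₀ * γ₀ * g₀⁻¹) = (g₀ * γ₀ * g₀⁻¹) * d := by
    apply Units.ext
    rw [Units.val_mul, hDg, Units.val_mul, hDg, hd, Matrix.mul_fin_two, Matrix.mul_fin_two]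
    simp [mul_comm]
  -- the normalised matrix
  set U₁ : Matrix (Fin 2) (Fin 2) ℂ := ((e * (g₀ * y) : GL (Fin 2) ℂ) : Matrix (Fin 2) (Fin 2) ℂ)
    with hU₁def
  have hU₁ : U₁ = !![(n₀ : ℂ)⁻¹ * U 0 0, (n₀ : ℂ)⁻¹ * U 0 1;
      (n₁ : ℂ)⁻¹ * U 1 0, (n₁ : ℂ)⁻¹ * U 1 1] := by
    rw [hU₁def, Units.val_mul, he, ← hUdef]
    conv_lhs => rw [Matrix.eta_fin_two U]
    rw [Matrix.mul_fin_two]
    simp
  have hU₁D : !![a, 0; 0, b] * U₁
      = U₁ * ((y⁻¹ * γ₀ * y : GL (Fin 2) ℂ) : Matrix (Fin 2) (Fin 2) ℂ) := by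
    have h1 : U₁ * ((y⁻¹ * γ₀ * y : GL (Fin 2) ℂ) : Matrix (Fin 2) (Fin 2) ℂ)
        = (e : Matrix (Fin 2) (Fin 2) ℂ) * (!![a, 0; 0, b] * U) := by
      rw [hU, hU₁def, Units.val_mul, ← hUdef, Matrix.mul_assoc]
    have h2 : !![a, 0; 0, b] * U₁ = (e : Matrix (Fin 2) (Fin 2) ℂ) * (!![a, 0; 0, b] * U) := by
      rw [hU₁def, Units.val_mul, ← hUdef, ← Matrix.mul_assoc, ← Matrix.mul_assoc, he,
        Matrix.mul_fin_two, Matrix.mul_fin_two]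
      simp [mul_comm]
    rw [h1, h2]
  have e00 : U₁ 0 0 = (n₀ : ℂ)⁻¹ * U 0 0 := by rw [hU₁]; rfl
  have e01 : U₁ 0 1 = (n₀ : ℂ)⁻¹ * U 0 1 := by rw [hU₁]; rfl
  have e10 : U₁ 1 0 = (n₁ : ℂ)⁻¹ * U 1 0 := by rw [hU₁]; rfl
  have e11 : U₁ 1 1 = (n₁ : ℂ)⁻¹ * U 1 1 := by rw [hU₁]; rfl
  have hninv0 : ‖((n₀ : ℂ))⁻¹‖ = n₀⁻¹ := by
    rw [norm_inv, Complex.norm_real, Real.norm_of_nonneg hn0.le]
  have hninv1 : ‖((n₁ : ℂ))⁻¹‖ = n₁⁻¹ := by
    rw [norm_inv, Complex.norm_real, Real.norm_of_nonneg hn1.le]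
  have hrow0 : ‖U₁ 0 0‖ + ‖U₁ 0 1‖ = 1 := by
    rw [e00, e01, norm_mul, norm_mul, hninv0, ← mul_add, ← hn₀]
    exact inv_mul_cancel₀ hn0.ne'
  have hrow1 : ‖U₁ 1 0‖ + ‖U₁ 1 1‖ = 1 := by
    rw [e10, e11, norm_mul, norm_mul, hninv1, ← mul_add, ← hn₁]
    exact inv_mul_cancel₀ hn1.ne'
  have hent : ∀ i j, ‖U₁ i j‖ ≤ 1 := by
    intro i j
    fin_cases i <;> fin_cases j <;> simp only [Fin.zero_eta, Fin.mk_one, Fin.isValue] <;>
      linarith [norm_nonneg (U₁ 0 0), norm_nonneg (U₁ 0 1), norm_nonneg (U₁ 1 0),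
        norm_nonneg (U₁ 1 1)]
  have hdetlow : ‖b - a‖ ≤ ‖U₁.det‖ * (4 * M + 2 * ‖a‖ + 1) := by
    have h := det_lower_bound176 hU₁D hrow0 hrow1 (hM _ hy)
    nlinarith [norm_nonneg U₁.det]
  have hdetpos : 0 < ‖U₁.det‖ := by
    by_contra h
    have h0 : ‖U₁.det‖ = 0 := le_antisymm (not_lt.mp h) (norm_nonneg _)
    rw [h0, zero_mul] at hdetlow
    linarith
  have hdetinv : ‖U₁.det‖⁻¹ ≤ (4 * M + 2 * ‖a‖ + 1) / ‖b - a‖ := by
    rw [inv_le_iff_one_le_mul₀ hdetpos, div_mul_eq_mul_div, le_div_iff₀ hba, one_mul, mul_comm]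
    exact hdetlow
  -- the inverse
  have hinv : ((((e * (g₀ * y))⁻¹ : GL (Fin 2) ℂ)) : Matrix (Fin 2) (Fin 2) ℂ)
      = U₁.det⁻¹ • !![U₁ 1 1, -U₁ 0 1; -U₁ 1 0, U₁ 0 0] := by
    rw [Matrix.coe_units_inv, ← hU₁def, Matrix.inv_def, Ring.inverse_eq_inv',
      Matrix.adjugate_fin_two]
  have hentinv : ∀ i j, ‖((((e * (g₀ * y))⁻¹ : GL (Fin 2) ℂ)) : Matrix (Fin 2) (Fin 2) ℂ) i j‖
      ≤ (4 * M + 2 * ‖a‖ + 1) / ‖b - a‖ := by
    intro i j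
    rw [hinv]
    have key : ∀ x : ℂ, ‖x‖ ≤ 1 → ‖U₁.det⁻¹ * x‖ ≤ (4 * M + 2 * ‖a‖ + 1) / ‖b - a‖ := by
      intro x hx
      rw [norm_mul, norm_inv]
      calc ‖U₁.det‖⁻¹ * ‖x‖ ≤ ‖U₁.det‖⁻¹ * 1 :=
            mul_le_mul_of_nonneg_left hx (inv_nonneg.mpr (norm_nonneg _))
        _ = ‖U₁.det‖⁻¹ := mul_one _
        _ ≤ _ := hdetinv
    fin_cases i <;> fin_cases j <;>
      simp only [Fin.zero_eta, Fin.mk_one, Fin.isValue, Matrix.smul_apply, Matrix.of_apply,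
        Matrix.cons_val_zero, Matrix.cons_val_one, Matrix.cons_val', Matrix.cons_val_fin_one,
        smul_eq_mul]
    · exact key _ (hent 1 1)
    · exact key _ (by rw [norm_neg]; exact hent 0 1)
    · exact key _ (by rw [norm_neg]; exact hent 1 0)
    · exact key _ (hent 0 0)
  -- the decomposition
  refine ⟨g₀⁻¹ * d * g₀, g₀⁻¹ * (e * (g₀ * y)), ?_, ⟨e * (g₀ * y), ⟨hent, hentinv⟩, rfl⟩, ?_⟩
  · have h1 : γ₀ * (g₀⁻¹ * d * g₀) = (g₀⁻¹ * d * g₀) * γ₀ := by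
      calc γ₀ * (g₀⁻¹ * d * g₀) = g₀⁻¹ * (g₀ * γ₀ * g₀⁻¹ * d) * g₀ := by group
        _ = g₀⁻¹ * (d * (g₀ * γ₀ * g₀⁻¹)) * g₀ := by rw [hdD]
        _ = (g₀⁻¹ * d * g₀) * γ₀ := by group
    rw [mul_assoc, h1, ← mul_assoc, inv_mul_cancel, one_mul]
  · calc y = g₀⁻¹ * (d * e) * g₀ * y := by rw [hde]; group
      _ = (g₀⁻¹ * d * g₀) * (g₀⁻¹ * (e * (g₀ * y))) := by group

end Fermat.Agent.LT.T7.H176

end
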