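import Mathlib
import Fermat.Agent.LT.T7.H558.FactDownSpec
import Fermat.Agent.LT.T7.H176.FD.CutAbs
import Fermat.Agent.LT.T7.H176.FD.OrbitC

/-!
# Row LT, tower T7, node C2.7.7 `FactDownC305`, leaf FD.8 = `ArchIntblC558` (helper176)

OFF-MAIN.  `archIntblC176 : H558.ArchIntblC558`, VERBATIM, unconditional.

For `F` continuous with compact support on `GL₂(ℂ)`, `γ₀` regular, `z` central and a continuous
cut-off function `β` for the centraliser `T` of `γ₀`: `y ↦ F(y⁻¹ γ₀ z y) β(y)` is integrable.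

* `CutAbs.lean` (`integrable_of_cut176`, Mathlib only): integrability from `{f ≠ 0} ⊆ T C`, `C`
  compact (Tonelli, left invariance only).
* `OrbitC.lean` (`exists_compact_orbit176`, Mathlib only): `{y : y⁻¹ γ₀ y ∈ Ω} ⊆ T C`.
* here: `y⁻¹ γ₀ z y ∈ supp F ⟺ y⁻¹ γ₀ y ∈ (supp F) z⁻¹` (`z` central).
-/

set_option autoImplicit false

open AutomorphicForm IsDedekindDomain NumberField MeasureTheory

noncomputable section

namespace Fermat.Agent.LT.T7.H176

open Fermat.Agent.LT.H556 Fermat.Agent.LT.H556.A0 Fermat.Agent.LT.T7 Fermat.Agent.LT.T7.H305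
  Fermat.Agent.LT.T7.H558

theorem secondCountable_GL2C176 : SecondCountableTopology (GL (Fin 2) ℂ) := by
  have : SecondCountableTopology (Matrix (Fin 2) (Fin 2) ℂ) :=
    inferInstanceAs (SecondCountableTopology (Fin 2 → Fin 2 → ℂ))
  have : SecondCountableTopology (Matrix (Fin 2) (Fin 2) ℂ)ᵐᵒᵖ :=
    MulOpposite.opHomeomorph.symm.secondCountableTopology
  exact (Units.isEmbedding_embedProduct (M := Matrix (Fin 2) (Fin 2) ℂ)).secondCountableTopology

theorem locallyCompact_GL2C176 : LocallyCompactSpace (GL (Fin 2) ℂ) := by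
  have : LocallyCompactSpace (Matrix (Fin 2) (Fin 2) ℂ) :=
    inferInstanceAs (LocallyCompactSpace (Fin 2 → Fin 2 → ℂ))
  exact (Units.isClosedEmbedding_embedProduct (α := Matrix (Fin 2) (Fin 2) ℂ)).locallyCompactSpace

/-- The centraliser is closed. -/
theorem isClosed_cent176 {H : Type} [Group H] [TopologicalSpace H] [IsTopologicalGroup H]
    [T2Space H] (γ : H) : IsClosed ((cent305 γ : Subgroup H) : Set H) := by
  have h : ((cent305 γ : Subgroup H) : Set H) = {x : H | x⁻¹ * γ * x = γ} := by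
    ext x; rfl
  rw [h]
  exact isClosed_eq ((continuous_inv.mul continuous_const).mul continuous_id) continuous_const

/-- **LEAF FD.8 = ARCH-INTBL**, verbatim. -/
theorem archIntblC176 : ArchIntblC558 := by
  intro μc hμc F hF hFs γ₀ hreg z hz μT hμT β hβ
  let _ : MeasurableSpace (GL (Fin 2) ℂ) := borel _
  have : BorelSpace (GL (Fin 2) ℂ) := ⟨rfl⟩
  let _ : MeasurableSpace (cent305 γ₀) := borel _
  have : BorelSpace (cent305 γ₀) := ⟨rfl⟩
  have := secondCountable_GL2C176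
  have := locallyCompact_GL2C176
  have : μc.IsHaarMeasure := hμc
  have : μT.IsHaarMeasure := hμT
  obtain ⟨hβc, hβ0, hβ1⟩ := hβ
  obtain ⟨M, hM⟩ := hF.bounded_above_of_compact_support hFs
  -- the compact set
  have hΩ : IsCompact ((fun x : GL (Fin 2) ℂ => x * z⁻¹) '' tsupport F) :=
    hFs.image (continuous_id.mul continuous_const)
  have hdisc : (γ₀ : Matrix (Fin 2) (Fin 2) ℂ).trace ^ 2
      - 4 * (γ₀ : Matrix (Fin 2) (Fin 2) ℂ).det ≠ 0 := hreg.ne_zero
  obtain ⟨C, hC, hCy⟩ := exists_compact_orbit176 γ₀ hdisc _ hΩ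
  have hmain := integrable_of_cut176 μc (cent305 γ₀) (isClosed_cent176 γ₀) μT β hβc hβ0 hβ1
    (fun y => F (y⁻¹ * (γ₀ * z) * y))
    (hF.comp ((continuous_inv.mul continuous_const).mul continuous_id)) M
    (fun y => hM _) C hC (by
      intro y hy
      have h1 : y⁻¹ * (γ₀ * z) * y ∈ tsupport F := subset_tsupport F hy
      have h2 : y⁻¹ * γ₀ * y = (y⁻¹ * (γ₀ * z) * y) * z⁻¹ := by
        have hzy : z * y = y * z := hz y
        calc y⁻¹ * γ₀ * y = y⁻¹ * γ₀ * (y * z) * z⁻¹ := by group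
          _ = y⁻¹ * γ₀ * (z * y) * z⁻¹ := by rw [hzy]
          _ = (y⁻¹ * (γ₀ * z) * y) * z⁻¹ := by group
      obtain ⟨t, c, ht, hc, hyc⟩ := hCy y ⟨_, h1, h2.symm⟩
      exact ⟨t, ht, c, hc, hyc⟩)
  exact hmain

end Fermat.Agent.LT.T7.H176

end
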