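import Mathlib

/-!
# Row LT, tower T7, node C2.7.13.1 `UpFactC340`, leaf UF.B4 `ArchIntblUpC340`: abstract part
# (helper176, OFF-MAIN, MATHLIB ONLY)

`integrable_of_cut_hom176`: the form of `integrable_of_cut176` (`FD/CutAbs.lean`) for a locally
compact group `T` acting on `G` through a continuous homomorphism `j : T → G` (not necessarily a
closed subgroup): `G` second countable with a left invariant σ-finite measure `μ` which is
finite on compact sets, `μT` a Haar measure of `T` (σ-compact), `β ≥ 0` continuous with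
`∫_T β(j(t) x) dμT(t) = 1` for all `x`, `f` continuous and bounded with `{f ≠ 0} ⊆ j(T) · C`, `C`
compact.  Then `f · β` is integrable.
-/

set_option autoImplicit false

open MeasureTheory Topology
open scoped ENNReal

noncomputable section

namespace Fermat.Agent.LT.T7.H176

section AbstractHom

variable {G : Type*} [Group G] [TopologicalSpace G] [IsTopologicalGroup G]
  [SecondCountableTopology G] [MeasurableSpace G] [BorelSpace G]
  {T : Type*} [Group T] [TopologicalSpace T] [IsTopologicalGroup T]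
  [MeasurableSpace T] [BorelSpace T]

omit [IsTopologicalGroup T] in
/-- **Tonelli for a cut-off function** (homomorphism form). -/
theorem lintegral_cut_hom_eq176 (μ : Measure G) [SFinite μ] [μ.IsMulLeftInvariant]
    (j : T →* G) (hj : Continuous j) (μT : Measure T) [SFinite μT]
    (b : G → ℝ≥0∞) (hb : Measurable b)
    (hcut : ∀ x : G, ∫⁻ t : T, b (j t * x) ∂μT = 1)
    (C₂ : Set G) (hC₂ : MeasurableSet C₂) :
    ∫⁻ y, (∫⁻ t : T, C₂.indicator (fun _ => (1 : ℝ≥0∞)) ((j t)⁻¹ * y) ∂μT) * b y ∂μ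
      = μ C₂ := by
  have hval : Measurable (fun t : T => j t) := hj.measurable
  have hind : Measurable (C₂.indicator (fun _ : G => (1 : ℝ≥0∞))) :=
    measurable_const.indicator hC₂
  have hm1 : Measurable (fun p : G × T => C₂.indicator (fun _ => (1 : ℝ≥0∞)) ((j p.2)⁻¹ * p.1)
      * b p.1) := by
    refine Measurable.mul ?_ (hb.comp measurable_fst)
    refine hind.comp ?_
    have hc : Continuous (fun p : G × T => (j p.2)⁻¹ * p.1) :=
      ((hj.comp continuous_snd).inv).mul continuous_fst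
    exact hc.measurable
  have hm2 : Measurable (fun p : T × G => C₂.indicator (fun _ => (1 : ℝ≥0∞)) p.2
      * b (j p.1 * p.2)) := by
    refine Measurable.mul (hind.comp measurable_snd) (hb.comp ?_)
    have hc : Continuous (fun p : T × G => j p.1 * p.2) :=
      (hj.comp continuous_fst).mul continuous_snd
    exact hc.measurable
  calc ∫⁻ y, (∫⁻ t : T, C₂.indicator (fun _ => (1 : ℝ≥0∞)) ((j t)⁻¹ * y) ∂μT) * b y ∂μ
      = ∫⁻ y, ∫⁻ t : T, C₂.indicator (fun _ => (1 : ℝ≥0∞)) ((j t)⁻¹ * y) * b y ∂μT ∂μ := by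
        refine lintegral_congr fun y => ?_
        rw [lintegral_mul_const]
        exact hind.comp ((hval.inv).mul_const y)
    _ = ∫⁻ t : T, ∫⁻ y, C₂.indicator (fun _ => (1 : ℝ≥0∞)) ((j t)⁻¹ * y) * b y ∂μ ∂μT :=
        lintegral_lintegral_swap hm1.aemeasurable
    _ = ∫⁻ t : T, ∫⁻ y, C₂.indicator (fun _ => (1 : ℝ≥0∞)) y * b (j t * y) ∂μ ∂μT := by
        refine lintegral_congr fun t => ?_
        have h := lintegral_mul_left_eq_self (μ := μ)
          (fun y => C₂.indicator (fun _ => (1 : ℝ≥0∞)) ((j t)⁻¹ * y) * b y) (j t)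
        rw [← h]
        refine lintegral_congr fun y => ?_
        simp only [inv_mul_cancel_left]
    _ = ∫⁻ y, ∫⁻ t : T, C₂.indicator (fun _ => (1 : ℝ≥0∞)) y * b (j t * y) ∂μT ∂μ :=
        lintegral_lintegral_swap hm2.aemeasurable
    _ = ∫⁻ y, C₂.indicator (fun _ => (1 : ℝ≥0∞)) y ∂μ := by
        refine lintegral_congr fun y => ?_
        rw [lintegral_const_mul, hcut y, mul_one]
        exact hb.comp (hval.mul_const y)
    _ = μ C₂ := by
        rw [lintegral_indicator hC₂]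
        simp

/-- **Integrability of a cut-off orbital integrand** (homomorphism form). -/
theorem integrable_of_cut_hom176 [T2Space G] [LocallyCompactSpace T] [SigmaCompactSpace T]
    (μ : Measure G) [SigmaFinite μ] [μ.IsMulLeftInvariant] [IsFiniteMeasureOnCompacts μ]
    (j : T →* G) (hj : Continuous j) (μT : Measure T) [μT.IsHaarMeasure]
    (β : G → ℝ) (hβc : Continuous β) (hβ0 : ∀ x, 0 ≤ β x)
    (hcut : ∀ x : G, ∫ t : T, β (j t * x) ∂μT = 1)
    (f : G → ℂ) (hf : Continuous f) (M : ℝ) (hM : ∀ y, ‖f y‖ ≤ M)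
    (C : Set G) (hC : IsCompact C)
    (hsupp : ∀ y, f y ≠ 0 → ∃ t : T, ∃ c ∈ C, y = j t * c) :
    Integrable (fun y => f y * ((β y : ℝ) : ℂ)) μ := by
  have : SigmaFinite μT := inferInstance
  obtain ⟨N, hNc, hN1⟩ := exists_compact_mem_nhds (1 : T)
  have hNpos : 0 < μT N := Measure.measure_pos_of_mem_nhds μT hN1
  have hNfin : μT N < ⊤ := hNc.measure_lt_top
  obtain ⟨C₂, hC₂c, hC₂⟩ : ∃ C₂ : Set G, IsCompact C₂ ∧
      ∀ n ∈ N, ∀ c ∈ C, (j n)⁻¹ * c ∈ C₂ :=
    ⟨(fun p : T × G => (j p.1)⁻¹ * p.2) '' (N ×ˢ C),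
      (hNc.prod hC).image (((hj.comp continuous_fst).inv).mul continuous_snd),
      fun n hn c hc => ⟨(n, c), ⟨hn, hc⟩, rfl⟩⟩
  have hC₂m : MeasurableSet C₂ := hC₂c.isClosed.measurableSet
  set b : G → ℝ≥0∞ := fun y => ENNReal.ofReal (β y) with hb
  have hbm : Measurable b := ENNReal.measurable_ofReal.comp hβc.measurable
  have hcut' : ∀ x : G, ∫⁻ t : T, b (j t * x) ∂μT = 1 := by
    intro x
    have hint : Integrable (fun t : T => β (j t * x)) μT :=
      integrable_of_integral_eq_one (hcut x)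
    have h := ofReal_integral_eq_lintegral_ofReal hint
      (Filter.Eventually.of_forall fun t => hβ0 _)
    rw [hcut x] at h
    simpa using h.symm
  have hkey := lintegral_cut_hom_eq176 μ j hj μT b hbm hcut' C₂ hC₂m
  have hg : ∀ y, f y ≠ 0 →
      μT N ≤ ∫⁻ t : T, C₂.indicator (fun _ => (1 : ℝ≥0∞)) ((j t)⁻¹ * y) ∂μT := by
    intro y hy
    obtain ⟨t₀, c, hc, rfl⟩ := hsupp y hy
    have hSm : MeasurableSet {t : T | (j t)⁻¹ * (j t₀ * c) ∈ C₂} := by
      have hcont : Continuous (fun t : T => (j t)⁻¹ * (j t₀ * c)) :=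
        (hj.inv).mul continuous_const
      exact hC₂m.preimage hcont.measurable
    have h1 : (fun t : T => C₂.indicator (fun _ => (1 : ℝ≥0∞)) ((j t)⁻¹ * (j t₀ * c)))
        = {t : T | (j t)⁻¹ * (j t₀ * c) ∈ C₂}.indicator (fun _ => (1 : ℝ≥0∞)) := by
      funext t
      by_cases h : (j t)⁻¹ * (j t₀ * c) ∈ C₂
      · rw [Set.indicator_of_mem h]
        exact (Set.indicator_of_mem (s := {t : T | (j t)⁻¹ * (j t₀ * c) ∈ C₂}) h
          (fun _ => (1 : ℝ≥0∞))).symm
      · rw [Set.indicator_of_notMem h]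
        exact (Set.indicator_of_notMem (s := {t : T | (j t)⁻¹ * (j t₀ * c) ∈ C₂}) h
          (fun _ => (1 : ℝ≥0∞))).symm
    rw [h1, lintegral_indicator hSm]
    simp only [lintegral_const, MeasurableSet.univ, Measure.restrict_apply, Set.univ_inter,
      one_mul]
    have h2 : μT ((fun t : T => t₀⁻¹ * t) ⁻¹' N) = μT N := measure_preimage_mul μT _ N
    rw [← h2]
    refine measure_mono ?_
    intro t ht
    simp only [Set.mem_preimage] at ht
    have h3 := hC₂ _ ht c hc
    have h4 : (j (t₀⁻¹ * t))⁻¹ * c = (j t)⁻¹ * (j t₀ * c) := by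
      simp [mul_assoc]
    rw [h4] at h3
    exact h3
  refine ⟨(hf.mul (Complex.continuous_ofReal.comp hβc)).aestronglyMeasurable, ?_⟩
  have hM0 : ENNReal.ofReal M * (μT N)⁻¹ ≠ ⊤ :=
    ENNReal.mul_ne_top ENNReal.ofReal_ne_top (ENNReal.inv_ne_top.mpr hNpos.ne')
  calc ∫⁻ y, ‖f y * ((β y : ℝ) : ℂ)‖ₑ ∂μ
      ≤ ∫⁻ y, ENNReal.ofReal M * (μT N)⁻¹ *
          ((∫⁻ t : T, C₂.indicator (fun _ => (1 : ℝ≥0∞)) ((j t)⁻¹ * y) ∂μT) * b y) ∂μ := by
        refine lintegral_mono fun y => ?_
        by_cases hy : f y = 0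
        · simp [hy]
        · have h1 : ‖f y * ((β y : ℝ) : ℂ)‖ₑ = ‖f y‖ₑ * b y := by
            rw [enorm_mul]
            congr 1
            rw [← ofReal_norm]
            simp [hb, abs_of_nonneg (hβ0 y)]
          have h2 : ‖f y‖ₑ ≤ ENNReal.ofReal M := by
            rw [← ofReal_norm]
            exact ENNReal.ofReal_le_ofReal (hM y)
          have h3 : (1 : ℝ≥0∞)
              ≤ (μT N)⁻¹ * ∫⁻ t : T, C₂.indicator (fun _ => (1 : ℝ≥0∞)) ((j t)⁻¹ * y) ∂μT := by
            calc (1 : ℝ≥0∞) = (μT N)⁻¹ * μT N :=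
                  (ENNReal.inv_mul_cancel hNpos.ne' hNfin.ne).symm
              _ ≤ _ := by gcongr; exact hg y hy
          rw [h1]
          calc ‖f y‖ₑ * b y ≤ ENNReal.ofReal M * (1 * b y) := by
                rw [one_mul]; gcongr
            _ ≤ ENNReal.ofReal M * (((μT N)⁻¹ *
                  ∫⁻ t : T, C₂.indicator (fun _ => (1 : ℝ≥0∞)) ((j t)⁻¹ * y) ∂μT) * b y) := by
                gcongr
            _ = _ := by ring
    _ = ENNReal.ofReal M * (μT N)⁻¹ * μ C₂ := by
        rw [lintegral_const_mul' _ _ hM0, hkey]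
    _ < ⊤ := ENNReal.mul_lt_top hM0.lt_top hC₂c.measure_lt_top

end AbstractHom

end Fermat.Agent.LT.T7.H176

end
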