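import Mathlib
import Fermat.Agent.LT.T7.H176.FD.CutAbsHom

/-!
# Row LT, tower T7, node C2.7.13.1 `UpFactC340`, leaf UF.B4 `ArchIntblUpC340`: the cyclic chain
# (helper176, OFF-MAIN, MATHLIB ONLY)

`integrable_cyc176`: for a locally compact second countable group `H` with a Haar measure `μ`,
`l > 0`, elements `δ_0, …, δ_{l-1}` with `δ_0 ⋯ δ_{l-1} = γ₀ z` (`z` central, the conjugation
orbit of `γ₀` closed in the quantitative form `horb`), a continuous cut-off function `β` for the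
centraliser `T` of `γ₀`, and a continuous bounded function `f` on `H^l` with
`f(y) ≠ 0 ⟹ y_a⁻¹ δ_a y_{a+1} ∈ Ω_a` (indices modulo `l`, `Ω_a` compact):
`y ↦ f(y) β(y_0)` is integrable on `H^l`.

Proof.  `y_a = P_a⁻¹ y_0 W_a`, `W_a ∈ Ω_0 ⋯ Ω_{a-1}`, `P_a = δ_0 ⋯ δ_{a-1}`, and
`y_0⁻¹ P_l y_0 ∈ Ω_0 ⋯ Ω_{l-1}`; so `y_0 = t c_0` (`horb`) and `y = j(t) c`,
`j(t)_a = P_a⁻¹ t P_a`, `c` in a compact set; `integrable_of_cut_hom176`.
-/

set_option autoImplicit false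

open MeasureTheory Topology
open scoped ENNReal Pointwise

noncomputable section

namespace Fermat.Agent.LT.T7.H176

section Cyc

variable {H : Type*} [Group H]

/-- The chain: `f y ≠ 0` forces `y_a = P_a⁻¹ y_0 W_a` and `y_0⁻¹ P_l y_0 = W_l`. -/
theorem chain_of_cyc176 (n : ℕ) (δ : ℕ → H) (P : ℕ → H) (hP0 : P 0 = 1)
    (hPs : ∀ k, P (k + 1) = P k * δ k) (Ω : ℕ → Set H) (ΩP : ℕ → Set H)
    (hΩP0 : ΩP 0 = {1}) (hΩPs : ∀ k, ΩP (k + 1) = ΩP k * Ω k)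
    (y : Fin (n + 1) → H)
    (hy : ∀ a : Fin (n + 1),
      (y a)⁻¹ * δ a * y ⟨(a.1 + 1) % (n + 1), Nat.mod_lt _ (Nat.succ_pos n)⟩ ∈ Ω a) :
    (∀ k (hk : k < n + 1), ∃ W ∈ ΩP k, y ⟨k, hk⟩ = (P k)⁻¹ * y 0 * W) ∧
      (y 0)⁻¹ * P (n + 1) * y 0 ∈ ΩP (n + 1) := by
  have hA : ∀ k (hk : k < n + 1), ∃ W ∈ ΩP k, y ⟨k, hk⟩ = (P k)⁻¹ * y 0 * W := by
    intro k
    induction k with
    | zero =>
      intro hk
      refine ⟨1, by rw [hΩP0]; exact Set.mem_singleton _, ?_⟩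
      rw [hP0]
      simp
    | succ k ih =>
      intro hk
      obtain ⟨W, hW, hyW⟩ := ih (by omega)
      have h1 := hy ⟨k, by omega⟩
      have hmod : (k + 1) % (n + 1) = k + 1 := Nat.mod_eq_of_lt hk
      have h2 : (⟨((⟨k, by omega⟩ : Fin (n + 1)).1 + 1) % (n + 1),
          Nat.mod_lt _ (Nat.succ_pos n)⟩ : Fin (n + 1)) = ⟨k + 1, hk⟩ := by
        apply Fin.ext
        exact hmod
      rw [h2] at h1
      refine ⟨W * ((y ⟨k, by omega⟩)⁻¹ * δ k * y ⟨k + 1, hk⟩), ?_, ?_⟩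
      · rw [hΩPs]
        exact Set.mul_mem_mul hW h1
      · rw [hPs, hyW]
        group
  refine ⟨hA, ?_⟩
  obtain ⟨W, hW, hyW⟩ := hA n (by omega)
  have h1 := hy ⟨n, by omega⟩
  have h2 : (⟨((⟨n, by omega⟩ : Fin (n + 1)).1 + 1) % (n + 1),
      Nat.mod_lt _ (Nat.succ_pos n)⟩ : Fin (n + 1)) = 0 := by
    apply Fin.ext
    simp
  rw [h2] at h1
  have h3 : (y 0)⁻¹ * P (n + 1) * y 0 = W * ((y ⟨n, by omega⟩)⁻¹ * δ n * y 0) := by
    rw [hPs, hyW]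
    group
  rw [h3, hΩPs]
  exact Set.mul_mem_mul hW h1

variable [TopologicalSpace H] [IsTopologicalGroup H]

/-- Compactness of the iterated products. -/
theorem isCompact_chain176 (Ω : ℕ → Set H) (hΩ : ∀ a, IsCompact (Ω a)) (ΩP : ℕ → Set H)
    (hΩP0 : ΩP 0 = {1}) (hΩPs : ∀ k, ΩP (k + 1) = ΩP k * Ω k) (k : ℕ) : IsCompact (ΩP k) := by
  induction k with
  | zero => rw [hΩP0]; exact isCompact_singleton
  | succ k ih => rw [hΩPs]; exact ih.mul (hΩ k)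

/-- **Integrability of the cyclic cut-off integrand.** -/
theorem integrable_cyc176 [T2Space H] [SecondCountableTopology H] [LocallyCompactSpace H]
    [MeasurableSpace H] [BorelSpace H] (μ : Measure H) [μ.IsHaarMeasure]
    (l : ℕ) (hl : 0 < l) (γ₀ z : H) (hz : ∀ g : H, z * g = g * z)
    (T : Subgroup H) (hT : ∀ t : H, t ∈ T ↔ t⁻¹ * γ₀ * t = γ₀)
    [MeasurableSpace T] [BorelSpace T] (μT : Measure T) [μT.IsHaarMeasure]
    (horb : ∀ Ω : Set H, IsCompact Ω → ∃ C : Set H, IsCompact C ∧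
      ∀ y : H, y⁻¹ * γ₀ * y ∈ Ω → ∃ t c : H, t⁻¹ * γ₀ * t = γ₀ ∧ c ∈ C ∧ y = t * c)
    (β : H → ℝ) (hβc : Continuous β) (hβ0 : ∀ x, 0 ≤ β x)
    (hcut : ∀ x : H, ∫ t : T, β ((t : H) * x) ∂μT = 1)
    (δ : ℕ → H) (P : ℕ → H) (hP0 : P 0 = 1) (hPs : ∀ k, P (k + 1) = P k * δ k)
    (hPl : P l = γ₀ * z)
    (Ω : ℕ → Set H) (hΩ : ∀ a, IsCompact (Ω a))
    (f : (Fin l → H) → ℂ) (hf : Continuous f) (M : ℝ) (hM : ∀ y, ‖f y‖ ≤ M)
    (hsupp : ∀ y : Fin l → H, f y ≠ 0 →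
      ∀ a : Fin l, (y a)⁻¹ * δ a * y ⟨(a.1 + 1) % l, Nat.mod_lt _ hl⟩ ∈ Ω a) :
    Integrable (fun y : Fin l → H => f y * ((β (y ⟨0, hl⟩) : ℝ) : ℂ))
      (Measure.pi fun _ : Fin l => μ) := by
  obtain ⟨n, rfl⟩ : ∃ n, l = n + 1 := ⟨l - 1, by omega⟩
  -- the topology of `T`
  have hTcl : IsClosed (T : Set H) := by
    have h : (T : Set H) = {x : H | x⁻¹ * γ₀ * x = γ₀} := by
      ext x
      exact hT x
    rw [h]
    exact isClosed_eq ((continuous_inv.mul continuous_const).mul continuous_id) continuous_const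
  have : LocallyCompactSpace T := hTcl.isClosedEmbedding_subtypeVal.locallyCompactSpace
  have : SigmaCompactSpace T := hTcl.isClosedEmbedding_subtypeVal.sigmaCompactSpace
  -- the iterated products of the supports
  obtain ⟨ΩP, hΩP0, hΩPs⟩ : ∃ ΩP : ℕ → Set H, ΩP 0 = {1} ∧ ∀ k, ΩP (k + 1) = ΩP k * Ω k :=
    ⟨fun k => Nat.rec {1} (fun k S => S * Ω k) k, rfl, fun k => rfl⟩
  have hΩPc := isCompact_chain176 Ω hΩ ΩP hΩP0 hΩPs
  have hΩ' : IsCompact ((fun x : H => x * z⁻¹) '' ΩP (n + 1)) :=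
    (hΩPc (n + 1)).image (continuous_id.mul continuous_const)
  obtain ⟨C₀, hC₀, hC₀y⟩ := horb _ hΩ'
  -- the homomorphism
  let j : T →* (Fin (n + 1) → H) :=
    { toFun := fun t a => (P a.1)⁻¹ * (t : H) * P a.1
      map_one' := by
        funext a
        simp
      map_mul' := by
        intro s t
        funext a
        simp only [Subgroup.coe_mul, Pi.mul_apply]
        group }
  have hj : Continuous j :=
    continuous_pi fun a => (continuous_const.mul continuous_subtype_val).mul continuous_const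
  -- the compact set
  let Cs : Fin (n + 1) → Set H := fun a =>
    (fun p : H × H => (P a.1)⁻¹ * p.1 * p.2) '' (C₀ ×ˢ ΩP a.1)
  have hCs : ∀ a, IsCompact (Cs a) := fun a =>
    (hC₀.prod (hΩPc a.1)).image
      ((continuous_const.mul continuous_fst).mul continuous_snd)
  have hC : IsCompact (Set.pi Set.univ Cs) := isCompact_univ_pi hCs
  refine integrable_of_cut_hom176 (Measure.pi fun _ : Fin (n + 1) => μ) j hj μT
    (fun y => β (y ⟨0, hl⟩)) (hβc.comp (continuous_apply _)) (fun y => hβ0 _) ?_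
    f hf M hM (Set.pi Set.univ Cs) hC ?_
  · intro x
    have h : ∀ t : T, (j t * x) ⟨0, hl⟩ = (t : H) * x ⟨0, hl⟩ := by
      intro t
      change (P 0)⁻¹ * (t : H) * P 0 * x ⟨0, hl⟩ = _
      rw [hP0]
      simp
    simp only [h]
    exact hcut _
  · intro y hy
    obtain ⟨hA, hB⟩ := chain_of_cyc176 n δ P hP0 hPs Ω ΩP hΩP0 hΩPs y (hsupp y hy)
    choose W hW hyW using hA
    have h1 : (y 0)⁻¹ * γ₀ * y 0 = (y 0)⁻¹ * P (n + 1) * y 0 * z⁻¹ := by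
      rw [hPl]
      have hzy : z * y 0 = y 0 * z := hz _
      calc (y 0)⁻¹ * γ₀ * y 0 = (y 0)⁻¹ * γ₀ * (y 0 * z) * z⁻¹ := by group
        _ = (y 0)⁻¹ * γ₀ * (z * y 0) * z⁻¹ := by rw [hzy]
        _ = (y 0)⁻¹ * (γ₀ * z) * y 0 * z⁻¹ := by group
    obtain ⟨t, c, ht, hc, hyc⟩ := hC₀y (y 0) ⟨_, hB, h1.symm⟩
    refine ⟨⟨t, (hT t).2 ht⟩, fun a => (P a.1)⁻¹ * c * W a.1 a.2, ?_, ?_⟩
    · intro a _
      exact ⟨(c, W a.1 a.2), ⟨hc, hW a.1 a.2⟩, rfl⟩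
    · funext a
      change y a = (P a.1)⁻¹ * t * P a.1 * ((P a.1)⁻¹ * c * W a.1 a.2)
      have h2 : y a = (P a.1)⁻¹ * y 0 * W a.1 a.2 := hyW a.1 a.2
      rw [h2, hyc]
      group

end Cyc

end Fermat.Agent.LT.T7.H176

end
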