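import Mathlib
import Fermat.Agent.LT.T7.H340.UpFactSpec
import Fermat.Agent.LT.T7.H176.FD.CycChain
import Fermat.Agent.LT.T7.H176.FD.OrbitC
import Fermat.Agent.LT.T7.H176.FD.ArchIntbl

/-!
# Row LT, tower T7, node C2.7.13.1 `UpFactC340`, leaf UF.B4 = `ArchIntblUpC340` (helper176)

OFF-MAIN.  `archIntblUpC176 K K' : H340.ArchIntblUpC340 K K'`, VERBATIM, unconditional (the
hypothesis `ArchIntblC558` is not used: the direct proof is shorter than the reduction).

The integrand at an infinite place `v` of `K` is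
`y ↦ ∏_{a < l} Φ_{w_a}(y_a⁻¹ δ_a y_{a+1}) β(y_0)` on `GL₂(ℂ)^l` (indices modulo `l`),
`δ_a = d_a((δ r'^j)_{w_a})`.

* `d_{a+1} ∘ (·)_{w_{a+1}} = d_a ∘ (·)_{w_a} ∘ σ` on `K'` (`sig` on the rational adeles,
  `AdelicAut.compat`), the ray is the same real scalar matrix `ρ` at all places, so
  `δ_0 ⋯ δ_{l-1} = e_0(N δ) ρ^{jl} = e_0(γ) ρ^{jl} = γ_v ρ^{jl}` (`rat` of the base change of
  adeles, `iot`, `d_0` is an involution).
* `γ_v` is regular (`γ` is elliptic, `K → ℂ` is injective): the orbit is closed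
  (`exists_compact_orbit176`, `FD/OrbitC.lean`).
* `integrable_cyc176` (`FD/CycChain.lean`, Mathlib only).
-/

set_option autoImplicit false

open AutomorphicForm IsDedekindDomain NumberField MeasureTheory
open scoped ComplexConjugate

noncomputable section

namespace Fermat.Agent.LT.T7.H176

open Fermat.Agent.LT.H556 Fermat.Agent.LT.H556.A0 Fermat.Agent.LT.T7 Fermat.Agent.LT.T7.H305
  Fermat.Agent.LT.T7.H558 Fermat.Agent.LT.T7.H340

attribute [local instance] Fermat.Agent.LT.T5.instMeasurableSpaceG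

section NormChain

variable {K' : Type} [Field K'] [NumberField K']

/-- The append form of the norm: `N_{k+1} δ = N_k δ · σ^k δ`. -/
theorem normUpTo_succ_append176 (s : T5.AdelicAut K') (δ : GL (Fin 2) K') (k : ℕ) :
    s.normUpTo (k + 1) δ = s.normUpTo k δ * (s.onRat)^[k] δ := by
  induction k with
  | zero =>
    change δ * s.onRat 1 = 1 * δ
    simp
  | succ k ih =>
    calc s.normUpTo (k + 1 + 1) δ = δ * s.onRat (s.normUpTo (k + 1) δ) := rfl
      _ = δ * s.onRat (s.normUpTo k δ * (s.onRat)^[k] δ) := by rw [ih]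
      _ = (δ * s.onRat (s.normUpTo k δ)) * s.onRat ((s.onRat)^[k] δ) := by
          rw [map_mul, mul_assoc]
      _ = s.normUpTo (k + 1) δ * (s.onRat)^[k + 1] δ := by
          rw [Function.iterate_succ_apply']
          rfl

end NormChain

section Main

variable (K K' : Type) [Field K] [NumberField K] [Field K'] [NumberField K'] [Algebra K K']

/-- **LEAF UF.B4 = ARCH-INTBL-UP**, verbatim. -/
theorem archIntblUpC176 : ArchIntblUpC340 K K' := by
  intro _ D hD _ _ _ ι hι μc hμc Φ hΦ δ γ hell hnorm m L hL v d hd hl j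
  let _ : MeasurableSpace (GL (Fin 2) ℂ) := borel _
  have : BorelSpace (GL (Fin 2) ℂ) := ⟨rfl⟩
  have := secondCountable_GL2C176
  have := locallyCompact_GL2C176
  have : μc.IsHaarMeasure := hμc
  -- the ray
  obtain ⟨_, t, _, _, htw⟩ := hD.frame'.ray
  have hray : ∀ a : ℕ,
      ((Matrix.GeneralLinearGroup.map (d.d a) (infGL305 (d.w a) D.R'.r) : GL (Fin 2) ℂ) :
        Matrix (Fin 2) (Fin 2) ℂ) = Matrix.diagonal (fun _ => (t : ℂ)) := by
    intro a
    ext i k
    have h2 : T5.infHom (d.w a) ((D.R'.r : Matrix (Fin 2) (Fin 2) (Adl K')) i k)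
        = Matrix.diagonal (fun _ => (t : ℂ)) i k := by
      rw [← htw (d.w a)]
      rfl
    change d.d a (T5.infHom (d.w a) ((D.R'.r : Matrix (Fin 2) (Fin 2) (Adl K')) i k)) = _
    rw [h2]
    by_cases hik : i = k
    · subst hik
      rw [Matrix.diagonal_apply_eq]
      rcases hd.typ a with h | h
      · rw [h]; rfl
      · rw [h]; exact Complex.conj_ofReal t
    · rw [Matrix.diagonal_apply_ne _ hik, map_zero]
  obtain ⟨ρ, hρ, hρv⟩ : ∃ ρ : GL (Fin 2) ℂ,
      (∀ a : ℕ, Matrix.GeneralLinearGroup.map (d.d a) (infGL305 (d.w a) D.R'.r) = ρ) ∧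
        (ρ : Matrix (Fin 2) (Fin 2) ℂ) = Matrix.diagonal (fun _ => (t : ℂ)) :=
    ⟨Matrix.GeneralLinearGroup.map (d.d 0) (infGL305 (d.w 0) D.R'.r),
      fun a => Units.ext ((hray a).trans (hray 0).symm), hray 0⟩
  have hρc : ∀ g : GL (Fin 2) ℂ, Commute ρ g := by
    intro g
    apply Units.ext
    rw [Units.val_mul, Units.val_mul, hρv]
    ext i k
    rw [Matrix.diagonal_mul, Matrix.mul_diagonal, mul_comm]
  -- the homomorphisms
  let F : ℕ → GL (Fin 2) K' →* GL (Fin 2) ℂ := fun a =>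
    (Matrix.GeneralLinearGroup.map (d.d a)).comp ((infGL305 (d.w a)).comp T5.ratG)
  have hδ' : ∀ a : ℕ, delA340 D.R'.r δ d j a = F a δ * ρ ^ j := by
    intro a
    change Matrix.GeneralLinearGroup.map (d.d a) (infGL305 (d.w a) (T5.ratG δ * D.R'.r ^ j)) = _
    rw [map_mul, map_mul, map_zpow, map_zpow, hρ a]
    rfl
  have hF : ∀ a : ℕ, a + 1 < D.l → ∀ g : GL (Fin 2) K', F (a + 1) g = F a (D.s.onRat g) := by
    intro a ha g
    apply Matrix.GeneralLinearGroup.ext
    intro i k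
    have h1 := hd.sig ⟨a, by omega⟩
      (algebraMap K' (Adl K') ((g : Matrix (Fin 2) (Fin 2) K') i k))
    rw [D.s.compat] at h1
    have h2 : (cycSucc340 (⟨a, by omega⟩ : Fin D.l)).1 = a + 1 := Nat.mod_eq_of_lt ha
    rw [h2] at h1
    exact h1.symm
  have hFk : ∀ k : ℕ, k < D.l → ∀ g : GL (Fin 2) K', F k g = F 0 ((D.s.onRat)^[k] g) := by
    intro k
    induction k with
    | zero => intro _ g; rfl
    | succ k ih =>
      intro hk g
      rw [hF k hk g, ih (by omega), Function.iterate_succ_apply]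
  -- the prefix products
  obtain ⟨P, hP0, hPs⟩ : ∃ P : ℕ → GL (Fin 2) ℂ, P 0 = 1 ∧
      ∀ k, P (k + 1) = P k * delA340 D.R'.r δ d j k :=
    ⟨fun k => Nat.rec 1 (fun k p => p * delA340 D.R'.r δ d j k) k, rfl, fun k => rfl⟩
  have hPk : ∀ k : ℕ, k ≤ D.l → P k = F 0 (D.s.normUpTo k δ) * (ρ ^ j) ^ k := by
    intro k
    induction k with
    | zero =>
      intro _
      rw [hP0, pow_zero, mul_one]
      exact (map_one (F 0)).symm
    | succ k ih =>
      intro hk
      have hc : Commute ((ρ ^ j) ^ k) (F 0 ((D.s.onRat)^[k] δ)) :=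
        ((hρc _).zpow_left j).pow_left k
      rw [hPs, ih (by omega), hδ', hFk k (by omega), normUpTo_succ_append176, map_mul, pow_succ]
      calc F 0 (D.s.normUpTo k δ) * (ρ ^ j) ^ k * (F 0 ((D.s.onRat)^[k] δ) * ρ ^ j)
          = F 0 (D.s.normUpTo k δ) * ((ρ ^ j) ^ k * F 0 ((D.s.onRat)^[k] δ)) * ρ ^ j := by
            group
        _ = F 0 (D.s.normUpTo k δ) * (F 0 ((D.s.onRat)^[k] δ) * (ρ ^ j) ^ k) * ρ ^ j := by
            rw [hc.eq]
        _ = _ := by group
  -- the base point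
  have hbase : F 0 (Matrix.GeneralLinearGroup.map (algebraMap K K') γ) = archG305 v γ := by
    apply Matrix.GeneralLinearGroup.ext
    intro i k
    change d.d 0 (T5.infHom (d.w 0) (algebraMap K' (Adl K')
      (algebraMap K K' ((γ : Matrix (Fin 2) (Fin 2) K) i k))))
      = T5.infHom v (algebraMap K (Adl K) ((γ : Matrix (Fin 2) (Fin 2) K) i k))
    rw [← hι.rat, hd.iot 0]
    rcases hd.typ 0 with h | h
    · rw [h]; rfl
    · rw [h]; exact Complex.conj_conj _
  have hPl : P D.l = archG305 v γ * (ρ ^ j) ^ D.l := by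
    rw [hPk D.l le_rfl, hnorm, hbase]
  have hzc : ∀ g : GL (Fin 2) ℂ, (ρ ^ j) ^ D.l * g = g * (ρ ^ j) ^ D.l := fun g =>
    (((hρc g).zpow_left j).pow_left D.l).eq
  -- regularity
  have hdisc : ((archG305 v γ : GL (Fin 2) ℂ) : Matrix (Fin 2) (Fin 2) ℂ).trace ^ 2
      - 4 * ((archG305 v γ : GL (Fin 2) ℂ) : Matrix (Fin 2) (Fin 2) ℂ).det ≠ 0 := by
    have h0 : T6.disc γ ≠ 0 := hell.1.ne_zero
    let f : K →+* ℂ := (T5.infHom v).comp (algebraMap K (Adl K))
    have hent : ∀ i k, ((archG305 v γ : GL (Fin 2) ℂ) : Matrix (Fin 2) (Fin 2) ℂ) i k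
        = f ((γ : Matrix (Fin 2) (Fin 2) K) i k) := fun i k => rfl
    have h1 : ((archG305 v γ : GL (Fin 2) ℂ) : Matrix (Fin 2) (Fin 2) ℂ).trace ^ 2
        - 4 * ((archG305 v γ : GL (Fin 2) ℂ) : Matrix (Fin 2) (Fin 2) ℂ).det
        = f (T6.disc γ) := by
      rw [Matrix.trace_fin_two, Matrix.det_fin_two, hent, hent, hent, hent]
      simp only [T6.disc, Matrix.trace_fin_two, Matrix.det_fin_two, map_sub, map_mul, map_add,
        map_pow, map_ofNat]
    rw [h1]
    exact (map_ne_zero f).2 h0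
  -- the cut-off
  obtain ⟨hβc, hβ0, hβ1⟩ := hL.cutc v
  let _ : MeasurableSpace (cent305 (archG305 v γ)) := borel _
  have : BorelSpace (cent305 (archG305 v γ)) := ⟨rfl⟩
  have : (L.μtc v).IsHaarMeasure := hL.torc v
  -- the test functions
  have hbd : ∀ a : ℕ, ∃ M : ℝ, ∀ x, ‖Φ (d.w a) x‖ ≤ M := fun a =>
    (hΦ (d.w a)).1.bounded_above_of_compact_support (hΦ (d.w a)).2
  choose M hM using hbd
  have hcont : Continuous (cycProd340 D.l (fun a => Φ (d.w a)) (delA340 D.R'.r δ d j)) := by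
    change Continuous (fun y : Fin D.l → GL (Fin 2) ℂ =>
      ∏ a : Fin D.l, Φ (d.w a.1) ((y a)⁻¹ * delA340 D.R'.r δ d j a.1 * y (cycSucc340 a)))
    refine continuous_finsetProd _ fun a _ => ?_
    exact (hΦ (d.w a.1)).1.comp
      ((((continuous_apply a).inv).mul continuous_const).mul (continuous_apply _))
  have hbound : ∀ y : Fin D.l → GL (Fin 2) ℂ,
      ‖cycProd340 D.l (fun a => Φ (d.w a)) (delA340 D.R'.r δ d j) y‖
        ≤ ∏ a : Fin D.l, M a.1 := by
    intro y
    unfold cycProd340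
    rw [norm_prod]
    exact Finset.prod_le_prod (fun a _ => norm_nonneg _) (fun a _ => hM a.1 _)
  have hmain := integrable_cyc176 μc D.l hl (archG305 v γ) ((ρ ^ j) ^ D.l) hzc
    (cent305 (archG305 v γ)) (fun t => Iff.rfl) (L.μtc v)
    (fun Ω hΩ => exists_compact_orbit176 (archG305 v γ) hdisc Ω hΩ)
    (L.βc v) hβc hβ0 hβ1 (delA340 D.R'.r δ d j) P hP0 hPs hPl
    (fun a => tsupport (Φ (d.w a))) (fun a => (hΦ (d.w a)).2)
    (cycProd340 D.l (fun a => Φ (d.w a)) (delA340 D.R'.r δ d j)) hcont _ hbound (by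
      intro y hy a
      have h1 : Φ (d.w a.1) ((y a)⁻¹ * delA340 D.R'.r δ d j a.1 * y (cycSucc340 a)) ≠ 0 := by
        unfold cycProd340 at hy
        exact (Finset.prod_ne_zero_iff.1 hy) a (Finset.mem_univ a)
      exact subset_tsupport _ h1)
  exact hmain

end Main

end Fermat.Agent.LT.T7.H176

end
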